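import Mathlib
import Fermat.Agent.FF2.R2.Translate

/-!
# MOONSHOT S19, node (G-INST) (helper27): translates of the chart, FINITE-FAMILY form

The finite-family version of helper22's `R2.translateCoord_hP`: the addition congruence is only
required on finite subsets `U` of the kernel `K` (with polynomials depending on `U`), and is then
applied to the finitely many points `j v - c (π v)`, `c γ + c γ' - c (γ + γ') - 2 c0` and their
partial sums, `v ∈ V` finite.
-/

set_option autoImplicit false
set_option linter.unusedSectionVars false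

namespace Fermat.Agent.FF2.GInst

open MvPolynomial Fermat.Agent.FF2.R2

variable {W B : Type*} [CommRing W] [CommRing B] [Algebra W B]
variable {J V Γ ι : Type*} [AddCommGroup J] [AddCommGroup V] [AddCommGroup Γ]

/-- **(G5-A), finite-family form.** -/
theorem translate_hP_finite [Fintype V] [DecidableEq J] (I : Ideal B)
    (x : J → ι → B) (K : AddSubgroup J) (j : V →+ J) (π : V →+ Γ) (c : Γ → J) (c0 : J)
    (hc0 : c0 ∈ K) (h1 : ∀ v, j v - c (π v) ∈ K)
    (hw : ∀ v v', c (π v) + c (π v') - c (π v + π v') - (c0 + c0) ∈ K)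
    (a : Γ → Γ → ι → W)
    (h2 : ∀ v v' k, x (c (π v) + c (π v') - c (π v + π v') - (c0 + c0)) k =
      algebraMap W B (a (π v) (π v') k))
    (hadd : ∀ U : Finset J, (∀ u ∈ U, u ∈ K) → ∃ Q : ι → MvPolynomial (ι ⊕ ι) W,
      ∀ u ∈ U, ∀ u' ∈ U, ∀ i, x (u + u' + c0) i - aeval (Sum.elim (x u) (x u')) (Q i) ∈ I)
    (γ γ' : Γ) (i : ι) :
    ∃ P : MvPolynomial (ι ⊕ ι) W, ∀ v v', π v = γ → π v' = γ' →
      x (j (v + v') - c (π (v + v'))) i -
        aeval (Sum.elim (x (j v - c (π v))) (x (j v' - c (π v')))) P ∈ I := by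
  classical
  -- the points in play
  let uOf : V → J := fun v => j v - c (π v)
  let wOf : V → V → J := fun v v' => c (π v) + c (π v') - c (π v + π v') - (c0 + c0)
  let mOf : V → V → J := fun v v' => uOf v + wOf v v' + c0
  let U : Finset J := (Finset.univ.image uOf ∪
    Finset.univ.image (fun vv : V × V => wOf vv.1 vv.2)) ∪
    Finset.univ.image (fun vv : V × V => mOf vv.1 vv.2)
  have huU : ∀ v, uOf v ∈ U := fun v =>
    Finset.mem_union_left _ (Finset.mem_union_left _
      (Finset.mem_image_of_mem _ (Finset.mem_univ v)))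
  have hwU : ∀ v v', wOf v v' ∈ U := fun v v' =>
    Finset.mem_union_left _ (Finset.mem_union_right _
      (Finset.mem_image.mpr ⟨(v, v'), Finset.mem_univ _, rfl⟩))
  have hmU : ∀ v v', mOf v v' ∈ U := fun v v' =>
    Finset.mem_union_right _ (Finset.mem_image.mpr ⟨(v, v'), Finset.mem_univ _, rfl⟩)
  have hU : ∀ u ∈ U, u ∈ K := by
    intro u hu
    rcases Finset.mem_union.mp hu with hu | hu
    · rcases Finset.mem_union.mp hu with hu | hu
      · obtain ⟨v, -, rfl⟩ := Finset.mem_image.mp hu
        exact h1 v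
      · obtain ⟨vv, -, rfl⟩ := Finset.mem_image.mp hu
        exact hw vv.1 vv.2
    · obtain ⟨vv, -, rfl⟩ := Finset.mem_image.mp hu
      exact K.add_mem (K.add_mem (h1 vv.1) (hw vv.1 vv.2)) hc0
  obtain ⟨Q, hQ⟩ := hadd U hU
  refine ⟨substPoly Q (a γ γ') i, ?_⟩
  rintro v v' rfl rfl
  have hsum : j (v + v') - c (π (v + v')) = mOf v v' + uOf v' + c0 := by
    simp only [mOf, uOf, wOf, map_add]
    abel
  rw [hsum, aeval_substPoly]
  -- first step: `x m ≡ Q (x u, a)`
  have hxw : (fun k' => algebraMap W B (a (π v) (π v') k')) = x (wOf v v') :=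
    funext fun k' => (h2 v v' k').symm
  have step1 : ∀ k, x (mOf v v') k -
      aeval (Sum.elim (x (uOf v)) (fun k' => algebraMap W B (a (π v) (π v') k'))) (Q k) ∈ I := by
    intro k
    rw [hxw]
    exact hQ (uOf v) (huU v) (wOf v v') (hwU v v') k
  -- second step: `x (m + u' + c0) ≡ Q (x m, x u')`
  have step2 : x (mOf v v' + uOf v' + c0) i -
      aeval (Sum.elim (x (mOf v v')) (x (uOf v'))) (Q i) ∈ I :=
    hQ (mOf v v') (hmU v v') (uOf v') (huU v') i
  have step3 : aeval (Sum.elim (x (mOf v v')) (x (uOf v'))) (Q i) -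
      aeval (Sum.elim (fun k => aeval (Sum.elim (x (uOf v))
        (fun k' => algebraMap W B (a (π v) (π v') k'))) (Q k)) (x (uOf v'))) (Q i) ∈ I := by
    apply aeval_sub_aeval_mem
    rintro (k | k)
    · simpa only [Sum.elim_inl] using step1 k
    · simp only [Sum.elim_inr, sub_self, Submodule.zero_mem]
  have := I.add_mem step2 step3
  rwa [sub_add_sub_cancel] at this

end Fermat.Agent.FF2.GInst
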