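import Mathlib
import Fermat.Agent.FF2.Base.S19Chart
import Fermat.Agent.FF2.G2I.Instance
import Fermat.Agent.FF2.R2.Translate
import Fermat.Agent.FF2.GInst.TranslateFin

/-!
# MOONSHOT S19, node (G-INST) / N10 (helper27): `S19_of_instance`

The frozen statement S19 from the instance-level geometry contract at
`S = G2I.redS p hℓp (padicPlace ℓ) _` and the level `Λ_ζ = Base.LamZ ℓ ζ`, `Γ_ζ = Base.GamZ ℓ ζ`:

* (ζ)    `ζ ^ m = 1`, `ℓ ∤ m`;
* (G0)   `J₀(p)[ℓ^k]` is finite;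
* (CH)   a chart `C : G2.ChartData S g`, `X : G2.CoordData C` with `genus ≤ g`, fixed by `Γ_ζ`
         (base points `P0 j`, centres `Pb j`, uniformisers `t j`: the hypotheses of `G2I.xJ_smul`);
* (LIFT) a section `c` of `reductionModL` on `red (J₀(p)[ℓ^k])` with `Γ_ζ`-fixed values;
* (ADD)  `c0 ∈ ker red` fixed by `Γ_ζ` and the FINITE-FAMILY two-chord addition congruence
         `AddCongr`: for every finite `U ⊆ ker red` and every `n` there are polynomials `Q i` over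
         `Λ_ζ` with `x (u + u' + c0) i ≡ Q i (x u, x u') mod ℓⁿ P` for all `u, u' ∈ U`.

The proof feeds helper5's geometry-facing sink `Base.S19_of_chart` with `Γ := red (V)`,
`ξ v := x (v - c (red v))`; the polynomial-truncation hypothesis is the finite-family version of
helper22's `R2.translateCoord_hP`.
-/

set_option autoImplicit false
set_option linter.unusedSectionVars false
set_option linter.style.haveILetI false

noncomputable section
namespace Fermat.Agent.FF2.GInst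

open AlgebraicCurve ModularCurve GaloisRep IsLocalRing Fermat.Agent.FF2.Order Fermat.Agent.FF2.R2
  Fermat.Agent.FF2.Desc Fermat.Agent.FF2.Base Fermat.Agent.S55 MvPolynomial Fermat.Agent.Val
  Fermat.Agent.Red Fermat.Agent.FF2.G2 Fermat.Agent.FF2.G2I Fermat.Agent.Val.GaloisModL

local notation "Qb" => AlgebraicClosure ℚ
local notation "GQ" => (AlgebraicClosure ℚ ≃ₐ[ℚ] AlgebraicClosure ℚ)

set_option synthInstance.maxHeartbeats 400000
set_option maxHeartbeats 1000000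

variable (p : ℕ) [NeZero p] {ℓ : ℕ} [hℓ : Fact ℓ.Prime] (hℓp : ¬ ℓ ∣ p)

/-! ### the coordinates as elements of `ℚ̄` -/

section Coord

variable {g : ℕ} {C : ChartData (redS p hℓp (padicPlace ℓ) (padicPlace_liesOverPrime ℓ)) g}
  (X : CoordData C) (hg : genusFF Qb (modularFunctionFieldBar p) ≤ g)

/-- helper14's coordinates `G2I.xJ` as elements of `P = padicPlace ℓ`. -/
def xP (u : JZero p) (i : Fin g) : ↥(padicPlace ℓ) :=
  ((xJ p hℓp (padicPlace ℓ) (padicPlace_liesOverPrime ℓ) X hg u i :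
    {c : padicPlace ℓ // residue (padicPlace ℓ) c = 0}) : padicPlace ℓ)

/-- helper14's coordinates `G2I.xJ` as elements of `ℚ̄` (junk outside the kernel of reduction). -/
def xQ (u : JZero p) (i : Fin g) : Qb := ((xP p hℓp X hg u i : ↥(padicPlace ℓ)) : Qb)

theorem xQ_def (u : JZero p) (i : Fin g) :
    xQ p hℓp X hg u i =
      (((xJ p hℓp (padicPlace ℓ) (padicPlace_liesOverPrime ℓ) X hg u i :
        {c : padicPlace ℓ // residue (padicPlace ℓ) c = 0}) : padicPlace ℓ) : Qb) := rfl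

theorem coe_xP (u : JZero p) (i : Fin g) :
    ((xP p hℓp X hg u i : ↥(padicPlace ℓ)) : Qb) = xQ p hℓp X hg u i := rfl

theorem xQ_mem (u : JZero p) (i : Fin g) : xQ p hℓp X hg u i ∈ padicPlace ℓ :=
  (xP p hℓp X hg u i).2

/-- Injectivity on the kernel of reduction. -/
theorem xQ_eq_iff {u u' : JZero p} (hu : reductionModL (padicPlace ℓ) p u = 0)
    (hu' : reductionModL (padicPlace ℓ) p u' = 0) :
    xQ p hℓp X hg u = xQ p hℓp X hg u' ↔ u = u' := by
  constructor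
  · intro h
    refine (xJ_eq_iff p hℓp (padicPlace ℓ) (padicPlace_liesOverPrime ℓ) X hg hu hu').mp ?_
    funext i
    apply Subtype.ext
    apply Subtype.ext
    exact congrFun h i
  · rintro rfl
    rfl

/-- Galois equivariance of the coordinates under a subgroup of the decomposition group fixing the
chart. -/
theorem xQ_smul {σ : GQ} (hσ : σ ∈ DP ℓ)
    (hP0 : ∀ j, arithmeticGalois (modularFunctionFieldFull p) σ • C.P0 j = C.P0 j)
    (hPb : ∀ j, coeffAutC (ResidueField (padicPlace ℓ)) p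
      (decompResAut (padicPlace ℓ) ⟨σ, hσ⟩) • C.Pb j = C.Pb j)
    (ht : ∀ j, arithmeticGalois (modularFunctionFieldFull p) σ • (X.T j).t = (X.T j).t)
    {u : JZero p} (hu : reductionModL (padicPlace ℓ) p u = 0) (i : Fin g) :
    xQ p hℓp X hg (σ • u) i = σ (xQ p hℓp X hg u i) :=
  xJ_smul p hℓp (padicPlace ℓ) (padicPlace_liesOverPrime ℓ) X hg hσ hP0 hPb ht hu i

end Coord

/-! ### the inclusion `Λ_ζ → P` -/

section Incl

variable (ℓ) (ζ : Qb)

/-- The inclusion `Λ_ζ → P`. -/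
def lamZIncl : ↥(LamZ ℓ ζ) →+* ↥(padicPlace ℓ) where
  toFun w := ⟨(w : Qb), w.2.1⟩
  map_one' := rfl
  map_mul' _ _ := rfl
  map_zero' := rfl
  map_add' _ _ := rfl

@[simp] theorem coe_lamZIncl (w : ↥(LamZ ℓ ζ)) : ((lamZIncl ℓ ζ w : ↥(padicPlace ℓ)) : Qb) = w :=
  rfl

/-- The `Λ_ζ`-algebra structure of `P` (local to this file). -/
@[reducible] def lamZAlg : Algebra ↥(LamZ ℓ ζ) ↥(padicPlace ℓ) := (lamZIncl ℓ ζ).toAlgebra

attribute [local instance] lamZAlg

theorem algebraMap_lamZAlg (w : ↥(LamZ ℓ ζ)) :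
    algebraMap ↥(LamZ ℓ ζ) ↥(padicPlace ℓ) w = lamZIncl ℓ ζ w := rfl

/-- Polynomial evaluation in `P` and in `ℚ̄` agree. -/
theorem coe_aeval_lamZ {σ : Type*} (f : σ → ↥(padicPlace ℓ)) (Pol : MvPolynomial σ ↥(LamZ ℓ ζ)) :
    ((aeval f Pol : ↥(padicPlace ℓ)) : Qb) = aeval (fun s => ((f s : ↥(padicPlace ℓ)) : Qb)) Pol := by
  rw [aeval_def, aeval_def]
  have h := eval₂_comp_left (padicPlace ℓ).subtype (algebraMap ↥(LamZ ℓ ζ) ↥(padicPlace ℓ)) f Pol
  exact h

end Incl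

/-! ### the contract (ADD) -/

/-- **The finite-family two-chord addition congruence (ADD)**: for every finite set `U` of points
of the kernel of reduction and every `n` there are polynomials `Q i` over `Λ_ζ` such that
`x (u + u' + c0) i ≡ Q i (x u, x u')` modulo `ℓⁿ P`, for all `u, u' ∈ U`. -/
def AddCongr (ζ : Qb) {g : ℕ}
    {C : ChartData (redS p hℓp (padicPlace ℓ) (padicPlace_liesOverPrime ℓ)) g}
    (X : CoordData C) (hg : genusFF Qb (modularFunctionFieldBar p) ≤ g) (c0 : JZero p) : Prop :=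
  ∀ U : Finset (JZero p), (∀ u ∈ U, reductionModL (padicPlace ℓ) p u = 0) → ∀ n : ℕ,
    ∃ Q : Fin g → MvPolynomial (Fin g ⊕ Fin g) ↥(LamZ ℓ ζ),
      ∀ u ∈ U, ∀ u' ∈ U, ∀ i : Fin g, ∃ b ∈ padicPlace ℓ,
        xQ p hℓp X hg (u + u' + c0) i -
          aeval (Sum.elim (xQ p hℓp X hg u) (xQ p hℓp X hg u')) (Q i) = (ℓ : Qb) ^ n * b

section Main

attribute [local instance] lamZAlg

variable (k : ℕ)

/-- The reduction of `J₀(p)[ℓ^k]` at `padicPlace ℓ`. -/
def redV : ↥(Submodule.torsionBy ℤ (JZero p) ((ℓ : ℤ) ^ k)) →+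
    JZeroC (ResidueField (padicPlace ℓ)) p :=
  (reductionModL (padicPlace ℓ) p).comp
    (Submodule.subtype (Submodule.torsionBy ℤ (JZero p) ((ℓ : ℤ) ^ k))).toAddMonoidHom

theorem redV_apply (v : ↥(Submodule.torsionBy ℤ (JZero p) ((ℓ : ℤ) ^ k))) :
    redV p (ℓ := ℓ) k v = reductionModL (padicPlace ℓ) p (v : JZero p) := rfl

/-- Membership in `ℓⁿ P` inside `P` versus inside `ℚ̄`. -/
theorem mem_span_pow_iff (n : ℕ) (z : ↥(padicPlace ℓ)) :
    z ∈ Ideal.span {((ℓ : ℕ) : ↥(padicPlace ℓ)) ^ n} ↔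
      ∃ b ∈ padicPlace ℓ, (z : Qb) = (ℓ : Qb) ^ n * b := by
  rw [Ideal.mem_span_singleton']
  constructor
  · rintro ⟨a, rfl⟩
    refine ⟨(a : Qb), a.2, ?_⟩
    rw [mul_comm]
    rfl
  · rintro ⟨b, hb, h⟩
    refine ⟨⟨b, hb⟩, Subtype.ext ?_⟩
    rw [h, mul_comm]
    rfl

section CoordP

variable {g : ℕ} {C : ChartData (redS p hℓp (padicPlace ℓ) (padicPlace_liesOverPrime ℓ)) g}
  (X : CoordData C) (hg : genusFF Qb (modularFunctionFieldBar p) ≤ g) (ζ : Qb)

theorem coe_aeval_xP (u u' : JZero p) (Pol : MvPolynomial (Fin g ⊕ Fin g) ↥(LamZ ℓ ζ)) :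
    ((aeval (Sum.elim (xP p hℓp X hg u) (xP p hℓp X hg u')) Pol : ↥(padicPlace ℓ)) : Qb) =
      aeval (Sum.elim (xQ p hℓp X hg u) (xQ p hℓp X hg u')) Pol := by
  rw [coe_aeval_lamZ]
  congr 2
  funext s
  rcases s with s | s <;> rfl

/-- (ADD) inside `P`. -/
theorem AddCongr.mem_span {c0 : JZero p} (hadd : AddCongr p hℓp ζ X hg c0)
    (U : Finset (JZero p)) (hU : ∀ u ∈ U, reductionModL (padicPlace ℓ) p u = 0) (n : ℕ) :
    ∃ Q : Fin g → MvPolynomial (Fin g ⊕ Fin g) ↥(LamZ ℓ ζ),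
      ∀ u ∈ U, ∀ u' ∈ U, ∀ i : Fin g,
        xP p hℓp X hg (u + u' + c0) i -
          aeval (Sum.elim (xP p hℓp X hg u) (xP p hℓp X hg u')) (Q i) ∈
            Ideal.span {((ℓ : ℕ) : ↥(padicPlace ℓ)) ^ n} := by
  obtain ⟨Q, hQ⟩ := hadd U hU n
  refine ⟨Q, fun u hu u' hu' i => ?_⟩
  rw [mem_span_pow_iff]
  obtain ⟨b, hb, h⟩ := hQ u hu u' hu' i
  refine ⟨b, hb, ?_⟩
  rw [← h, ← coe_aeval_xP]
  rfl

end CoordP

set_option maxHeartbeats 8000000 in
/-- The polynomial-truncation hypothesis of the sink from (ADD) in finite-family form. -/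
theorem hP_of_addCongr
    {ζ : Qb}
    (hfinV : Finite ↥(Submodule.torsionBy ℤ (JZero p) ((ℓ : ℤ) ^ k)))
    {g : ℕ} (hg : genusFF Qb (modularFunctionFieldBar p) ≤ g)
    (C : ChartData (redS p hℓp (padicPlace ℓ) (padicPlace_liesOverPrime ℓ)) g) (X : CoordData C)
    (hP0 : ∀ σ ∈ GamZ ℓ ζ, ∀ j,
      arithmeticGalois (modularFunctionFieldFull p) σ • C.P0 j = C.P0 j)
    (hPb : ∀ (σ : GQ) (hσ : σ ∈ GamZ ℓ ζ), ∀ j, coeffAutC (ResidueField (padicPlace ℓ)) p
      (decompResAut (padicPlace ℓ) ⟨σ, hσ.1⟩) • C.Pb j = C.Pb j)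
    (ht : ∀ σ ∈ GamZ ℓ ζ, ∀ j,
      arithmeticGalois (modularFunctionFieldFull p) σ • (X.T j).t = (X.T j).t)
    (c : JZeroC (ResidueField (padicPlace ℓ)) p → JZero p)
    (hc : ∀ v : ↥(Submodule.torsionBy ℤ (JZero p) ((ℓ : ℤ) ^ k)),
      reductionModL (padicPlace ℓ) p (c (reductionModL (padicPlace ℓ) p (v : JZero p))) =
        reductionModL (padicPlace ℓ) p (v : JZero p))
    (hcfix : ∀ σ ∈ GamZ ℓ ζ, ∀ v : ↥(Submodule.torsionBy ℤ (JZero p) ((ℓ : ℤ) ^ k)),
      σ • c (reductionModL (padicPlace ℓ) p (v : JZero p)) =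
        c (reductionModL (padicPlace ℓ) p (v : JZero p)))
    (c0 : JZero p) (hc0 : reductionModL (padicPlace ℓ) p c0 = 0)
    (hc0fix : ∀ σ ∈ GamZ ℓ ζ, σ • c0 = c0)
    (hadd : AddCongr p hℓp ζ X hg c0)
    (n : ℕ) (γ γ' : ↥(redV p (ℓ := ℓ) k).range) (i : Fin g) :
    ∃ Pol : MvPolynomial (Fin g ⊕ Fin g) ↥(LamZ ℓ ζ),
      ∀ v v' : ↥(Submodule.torsionBy ℤ (JZero p) ((ℓ : ℤ) ^ k)),
        (redV p (ℓ := ℓ) k).rangeRestrict v = γ → (redV p (ℓ := ℓ) k).rangeRestrict v' = γ' →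
        ∃ b ∈ padicPlace ℓ,
          xQ p hℓp X hg (((v + v' : ↥(Submodule.torsionBy ℤ (JZero p) ((ℓ : ℤ) ^ k))) : JZero p) -
            c (reductionModL (padicPlace ℓ) p ((v + v' : ↥(Submodule.torsionBy ℤ (JZero p)
              ((ℓ : ℤ) ^ k))) : JZero p))) i -
          aeval (Sum.elim
            (xQ p hℓp X hg ((v : JZero p) - c (reductionModL (padicPlace ℓ) p (v : JZero p))))
            (xQ p hℓp X hg ((v' : JZero p) - c (reductionModL (padicPlace ℓ) p (v' : JZero p)))))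
            Pol = (ℓ : Qb) ^ n * b := by
  classical
  haveI := hfinV
  haveI : Fintype ↥(Submodule.torsionBy ℤ (JZero p) ((ℓ : ℤ) ^ k)) := Fintype.ofFinite _
  have hu0 : ∀ v : ↥(Submodule.torsionBy ℤ (JZero p) ((ℓ : ℤ) ^ k)),
      reductionModL (padicPlace ℓ) p
        ((v : JZero p) - c (reductionModL (padicPlace ℓ) p (v : JZero p))) = 0 := fun v => by
    rw [map_sub, hc v, sub_self]
  -- the constants `w = c γ + c γ' - c (γ + γ') - 2 c0`
  have hsumred : ∀ v v' : ↥(Submodule.torsionBy ℤ (JZero p) ((ℓ : ℤ) ^ k)),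
      reductionModL (padicPlace ℓ) p (v : JZero p) +
        reductionModL (padicPlace ℓ) p (v' : JZero p) =
      reductionModL (padicPlace ℓ) p ((v + v' : ↥(Submodule.torsionBy ℤ (JZero p)
        ((ℓ : ℤ) ^ k))) : JZero p) := fun v v' => by
    rw [Submodule.coe_add, map_add]
  have hw0 : ∀ v v' : ↥(Submodule.torsionBy ℤ (JZero p) ((ℓ : ℤ) ^ k)),
      reductionModL (padicPlace ℓ) p
        (c (reductionModL (padicPlace ℓ) p (v : JZero p)) +
          c (reductionModL (padicPlace ℓ) p (v' : JZero p)) -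
          c (reductionModL (padicPlace ℓ) p (v : JZero p) +
            reductionModL (padicPlace ℓ) p (v' : JZero p)) - (c0 + c0)) = 0 := by
    intro v v'
    rw [hsumred v v', map_sub, map_sub, map_add, map_add, hc v, hc v', hc (v + v'), hc0,
      ← hsumred v v']
    abel
  have hwfix : ∀ σ ∈ GamZ ℓ ζ, ∀ v v' : ↥(Submodule.torsionBy ℤ (JZero p) ((ℓ : ℤ) ^ k)),
      σ • (c (reductionModL (padicPlace ℓ) p (v : JZero p)) +
          c (reductionModL (padicPlace ℓ) p (v' : JZero p)) -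
          c (reductionModL (padicPlace ℓ) p (v : JZero p) +
            reductionModL (padicPlace ℓ) p (v' : JZero p)) - (c0 + c0)) =
        c (reductionModL (padicPlace ℓ) p (v : JZero p)) +
          c (reductionModL (padicPlace ℓ) p (v' : JZero p)) -
          c (reductionModL (padicPlace ℓ) p (v : JZero p) +
            reductionModL (padicPlace ℓ) p (v' : JZero p)) - (c0 + c0) := by
    intro σ hσ v v'
    rw [hsumred v v', smul_sub, smul_sub, smul_add, smul_add, hcfix σ hσ v, hcfix σ hσ v',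
      hcfix σ hσ (v + v'), hc0fix σ hσ]
  have hconst : ∀ (γ γ' : ↥(redV p (ℓ := ℓ) k).range) (k' : Fin g),
      xQ p hℓp X hg (c (γ : JZeroC (ResidueField (padicPlace ℓ)) p) +
        c (γ' : JZeroC (ResidueField (padicPlace ℓ)) p) -
        c ((γ : JZeroC (ResidueField (padicPlace ℓ)) p) +
          (γ' : JZeroC (ResidueField (padicPlace ℓ)) p)) - (c0 + c0)) k' ∈ LamZ ℓ ζ := by
    intro γ γ' k'
    obtain ⟨v, hv⟩ := AddMonoidHom.mem_range.mp γ.2
    obtain ⟨v', hv'⟩ := AddMonoidHom.mem_range.mp γ'.2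
    rw [← hv, ← hv', redV_apply, redV_apply]
    refine ⟨xQ_mem p hℓp X hg _ k', fun σ hσ => ?_⟩
    rw [← xQ_smul p hℓp X hg hσ.1 (hP0 σ hσ) (hPb σ hσ) (ht σ hσ) (hw0 v v') k',
      hwfix σ hσ v v']
  obtain ⟨Pol, hPol⟩ := translate_hP_finite
    (W := ↥(LamZ ℓ ζ)) (B := ↥(padicPlace ℓ))
    (Ideal.span {((ℓ : ℕ) : ↥(padicPlace ℓ)) ^ n})
    (xP p hℓp X hg) (reductionModL (padicPlace ℓ) p).ker
    (Submodule.subtype (Submodule.torsionBy ℤ (JZero p) ((ℓ : ℤ) ^ k))).toAddMonoidHom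
    (redV p (ℓ := ℓ) k).rangeRestrict
    (fun γ : ↥(redV p (ℓ := ℓ) k).range => c (γ : JZeroC (ResidueField (padicPlace ℓ)) p)) c0
    (AddMonoidHom.mem_ker.mpr hc0)
    (fun v => AddMonoidHom.mem_ker.mpr (hu0 v))
    (fun v v' => AddMonoidHom.mem_ker.mpr (hw0 v v'))
    (fun γ γ' k' => ⟨_, hconst γ γ' k'⟩)
    (fun v v' k' => Subtype.ext rfl)
    (fun U hU => AddCongr.mem_span p hℓp X hg ζ hadd U
      (fun u hu => AddMonoidHom.mem_ker.mp (hU u hu)) n)
    γ γ' i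
  refine ⟨Pol, fun v v' hv hv' => ?_⟩
  have h := hPol v v' hv hv'
  rw [mem_span_pow_iff] at h
  obtain ⟨b, hb, h⟩ := h
  refine ⟨b, hb, ?_⟩
  rw [← h, ← coe_aeval_xP]
  rfl


/-- **(G-INST)/N10: the frozen S19 from the instance-level geometry contract.** -/
theorem S19_of_instance
    {ζ : Qb} {m : ℕ} (hζ : ζ ^ m = 1) (hm : ¬ ℓ ∣ m)
    -- (G0)
    (hfinV : Finite ↥(Submodule.torsionBy ℤ (JZero p) ((ℓ : ℤ) ^ k)))
    -- (CH): a chart fixed by `Γ_ζ`
    {g : ℕ} (hg : genusFF Qb (modularFunctionFieldBar p) ≤ g)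
    (C : ChartData (redS p hℓp (padicPlace ℓ) (padicPlace_liesOverPrime ℓ)) g) (X : CoordData C)
    (hP0 : ∀ σ ∈ GamZ ℓ ζ, ∀ j,
      arithmeticGalois (modularFunctionFieldFull p) σ • C.P0 j = C.P0 j)
    (hPb : ∀ (σ : GQ) (hσ : σ ∈ GamZ ℓ ζ), ∀ j, coeffAutC (ResidueField (padicPlace ℓ)) p
      (decompResAut (padicPlace ℓ) ⟨σ, hσ.1⟩) • C.Pb j = C.Pb j)
    (ht : ∀ σ ∈ GamZ ℓ ζ, ∀ j,
      arithmeticGalois (modularFunctionFieldFull p) σ • (X.T j).t = (X.T j).t)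
    -- (LIFT): `Γ_ζ`-fixed lifts of the classes in `red (J₀(p)[ℓ^k])`
    (c : JZeroC (ResidueField (padicPlace ℓ)) p → JZero p)
    (hc : ∀ v : ↥(Submodule.torsionBy ℤ (JZero p) ((ℓ : ℤ) ^ k)),
      reductionModL (padicPlace ℓ) p (c (reductionModL (padicPlace ℓ) p (v : JZero p))) =
        reductionModL (padicPlace ℓ) p (v : JZero p))
    (hcfix : ∀ σ ∈ GamZ ℓ ζ, ∀ v : ↥(Submodule.torsionBy ℤ (JZero p) ((ℓ : ℤ) ^ k)),
      σ • c (reductionModL (padicPlace ℓ) p (v : JZero p)) =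
        c (reductionModL (padicPlace ℓ) p (v : JZero p)))
    -- (ADD): the two-chord constant and the finite-family addition congruence
    (c0 : JZero p) (hc0 : reductionModL (padicPlace ℓ) p c0 = 0)
    (hc0fix : ∀ σ ∈ GamZ ℓ ζ, σ • c0 = c0)
    (hadd : AddCongr p hℓp ζ X hg c0) :
    ∃ (H : Type) (_ : CommRing H) (_ : HopfAlgebra (GaloisRep.ratLocalizedAt ℓ) H),
      Module.Finite (GaloisRep.ratLocalizedAt ℓ) H ∧ Module.Flat (GaloisRep.ratLocalizedAt ℓ) H ∧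
      Coalgebra.IsCocomm (GaloisRep.ratLocalizedAt ℓ) H ∧
      ∃ e : WithConv (H →ₐ[GaloisRep.ratLocalizedAt ℓ] AlgebraicClosure ℚ) ≃
          ↥(Submodule.torsionBy ℤ (JZero p) ((ℓ : ℤ) ^ k)),
        (∀ f g, e (f * g) = e f + e g) ∧
        ∀ (σ : AlgebraicClosure ℚ ≃ₐ[ℚ] AlgebraicClosure ℚ)
          (f g : WithConv (H →ₐ[GaloisRep.ratLocalizedAt ℓ] AlgebraicClosure ℚ)),
          (∀ h : H, g h = σ (f h)) → ((e g : JZero p)) = σ • (e f : JZero p) := by
  classical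
  haveI := hfinV
  haveI : Fintype ↥(Submodule.torsionBy ℤ (JZero p) ((ℓ : ℤ) ^ k)) := Fintype.ofFinite _
  -- the kernel facts
  have hu0 : ∀ v : ↥(Submodule.torsionBy ℤ (JZero p) ((ℓ : ℤ) ^ k)),
      reductionModL (padicPlace ℓ) p
        ((v : JZero p) - c (reductionModL (padicPlace ℓ) p (v : JZero p))) = 0 := fun v => by
    rw [map_sub, hc v, sub_self]
  -- `Γ_ζ` acts trivially on `red V`
  have hredfix : ∀ τ ∈ GamZ ℓ ζ, ∀ v : ↥(Submodule.torsionBy ℤ (JZero p) ((ℓ : ℤ) ^ k)),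
      reductionModL (padicPlace ℓ) p (τ • (v : JZero p)) =
        reductionModL (padicPlace ℓ) p (v : JZero p) := by
    intro τ hτ v
    have h1 := reductionModL_smul_eq_zero p hℓp (padicPlace ℓ) (padicPlace_liesOverPrime ℓ) hτ.1
      (hu0 v)
    rw [smul_sub, hcfix τ hτ v, map_sub, hc v, sub_eq_zero] at h1
    exact h1
  haveI : Finite ↥(redV p (ℓ := ℓ) k).range :=
    Finite.of_surjective (redV p (ℓ := ℓ) k).rangeRestrict
      (redV p (ℓ := ℓ) k).rangeRestrict_surjective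
  refine Base.S19_of_chart p k hζ hm hfinV (Γ := ↥(redV p (ℓ := ℓ) k).range) (ι := Fin g)
    (redV p (ℓ := ℓ) k).rangeRestrict
    (fun v i => xQ p hℓp X hg
      ((v : JZero p) - c (reductionModL (padicPlace ℓ) p (v : JZero p))) i) ?_ ?_ ?_ ?_ ?_
  · -- values in `P`
    intro v i
    exact xQ_mem p hℓp X hg _ i
  · -- injectivity on the fibres
    intro v w hπ hξ
    have h1 : reductionModL (padicPlace ℓ) p (v : JZero p) =
        reductionModL (padicPlace ℓ) p (w : JZero p) := congrArg Subtype.val hπ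
    have h2 := (xQ_eq_iff p hℓp X hg (hu0 v) (hu0 w)).mp hξ
    rw [h1, sub_left_inj] at h2
    exact Subtype.ext h2
  · -- `π` is invariant
    intro τ hτ v
    apply Subtype.ext
    exact hredfix τ hτ v
  · -- equivariance of the coordinates
    intro τ hτ v i
    show xQ p hℓp X hg (τ • (v : JZero p) -
      c (reductionModL (padicPlace ℓ) p (τ • (v : JZero p)))) i = _
    rw [hredfix τ hτ v, ← xQ_smul p hℓp X hg hτ.1 (hP0 τ hτ) (hPb τ hτ) (ht τ hτ) (hu0 v) i,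
      smul_sub, hcfix τ hτ v]
  · -- the polynomial truncations
    intro n γ γ' i
    exact hP_of_addCongr p hℓp k hfinV hg C X hP0 hPb ht c hc hcfix c0 hc0 hc0fix hadd n γ γ' i

end Main

end Fermat.Agent.FF2.GInst
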