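import Mathlib
import Fermat.Agent.FF2.GInst.Assembly
import Fermat.Agent.FF2.Main.Final

/-!
# MOONSHOT S19, node N10 (helper27): `S19_of_instance` in helper19's dialect

`instContract : Main.InstContract p ℓ hℓp kk` (helper19's `Main/Final.lean`), and the frozen S19
from helper19's `Main.GeoContract` alone (`S19_of_geoContract`), given the finiteness (G0).
-/

set_option autoImplicit false
set_option linter.unusedSectionVars false
set_option linter.style.haveILetI false

namespace Fermat.Agent.FF2.GInst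

open ModularCurve

set_option synthInstance.maxHeartbeats 400000
set_option maxHeartbeats 1000000

variable (p : ℕ) [NeZero p] (ℓ : ℕ) [hℓ : Fact ℓ.Prime] (hℓp : ¬ ℓ ∣ p) (kk : ℕ)

/-- **N10 in helper19's dialect**: `S19_of_instance` proves `Main.InstContract`. -/
theorem instContract [hfin : Finite ↥(Submodule.torsionBy ℤ (JZero p) ((ℓ : ℤ) ^ kk))] :
    Fermat.Agent.FF2.Main.InstContract p ℓ hℓp kk := by
  intro m ζ hm hζ g hg C X hX c hc hcfix c0 hc0 hc0fix hadd
  exact S19_of_instance p hℓp kk hζ hm hfin hg C X hX.1 hX.2.1 hX.2.2 c (fun v => hc _)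
    (fun σ hσ v => hcfix σ hσ v) c0 hc0 hc0fix hadd

/-- The frozen S19 from (G0) and helper19's `Main.GeoContract` (= N7 + N8). -/
theorem S19_of_geoContract [Finite ↥(Submodule.torsionBy ℤ (JZero p) ((ℓ : ℤ) ^ kk))]
    (hGEO : Fermat.Agent.FF2.Main.GeoContract p ℓ hℓp) :
    Fermat.Agent.FF2.Main.S19Concl p ℓ kk :=
  Fermat.Agent.FF2.Main.S19_of_contracts p ℓ hℓp kk hGEO (instContract p ℓ hℓp kk)

end Fermat.Agent.FF2.GInst
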